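/-
helper2 (P-ORD, block B1, row 1159 B1-D-SURJ): THE INSTANCE of [SURJ] for the nodal data `nmG`.

Generic in the component (`CompSoft A V red` of helper84, `NodalSpecB`): every place `Q` of the
function field `Fk` of the component lies over the centre of a place `P` of `F = ℚ̄(X₀(N))`.

Proof: the composite valuation ring `W = {f ∈ V | red f ∈ O_Q}` contains `A` and `y = j` or
`y = j⁻¹`, hence the chart `B̄(y)`; `𝔫 = {f ∈ B̄(y) | red f ∈ 𝔪_Q}` is a prime ideal of `B̄(y)`
containing `𝔪_A` and `y - a` (`a` a lift of the value of `red y` at `Q`); helper39's generic core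
`sc_exists_place` (going-down + Chevalley) gives a place `P` with `y(P) = a` and centre `𝔫`.

TARGETS (row 1159): `nmSurjOo : NmSurjOoStatement M p`, `nmSurjZero : NmSurjZeroStatement M p`.
-/
import Fermat.Agent.H84.ORD.NodalSpecFinal
import Fermat.Agent.H20.ORD.NmSoft
import Fermat.Agent.H39.ORD.SurjCore
import Fermat.Agent.H92.ORD.NodalAsm

set_option autoImplicit false
set_option linter.unusedSectionVars false
set_option linter.style.haveILetI false
set_option synthInstance.maxHeartbeats 400000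

noncomputable section

open AlgebraicCurve ModularCurve IntermediateField

namespace Fermat.Agent.H2.ORD

open Fermat.Agent.H72.FF Fermat.Agent.H18.ORD Fermat.Agent.H66 Fermat.Agent.H27.ESD
  Fermat.Agent.H84.ORD Fermat.Agent.H39.ORD

/-! ### The coordinate `j` -/

section J

variable (N : ℕ) [NeZero N]

theorem nsj_nmJ_eq : nmJ N = Fermat.Agent.H23.jBar N :=
  Fermat.Agent.H83.jBarD_one N

theorem nsj_transcendental : Transcendental Qb (nmJ N) := by
  rw [nsj_nmJ_eq]
  exact (Fermat.Agent.H23.degreeStatement_holds N).1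

theorem nsj_finite : FiniteDimensional Qb⟮nmJ N⟯ (FLb N) := by
  rw [nsj_nmJ_eq]
  exact (Fermat.Agent.H23.degreeStatement_holds N).2.1

theorem nsj_ne_zero : nmJ N ≠ 0 := by
  intro h
  apply nsj_transcendental N
  rw [h]
  exact isAlgebraic_zero

theorem nsj_inv_transcendental : Transcendental Qb (nmJ N)⁻¹ := fun h =>
  nsj_transcendental N (IsAlgebraic.inv_iff.mp h)

theorem nsj_adjoin_inv : Qb⟮(nmJ N)⁻¹⟯ = Qb⟮nmJ N⟯ := by
  apply le_antisymm
  · rw [adjoin_simple_le_iff]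
    exact inv_mem (mem_adjoin_simple_self Qb _)
  · rw [adjoin_simple_le_iff]
    have h : ((nmJ N)⁻¹)⁻¹ ∈ Qb⟮(nmJ N)⁻¹⟯ := inv_mem (mem_adjoin_simple_self Qb _)
    rwa [inv_inv] at h

theorem nsj_inv_finite : FiniteDimensional Qb⟮(nmJ N)⁻¹⟯ (FLb N) := by
  have h := nsj_finite N
  have e := nsj_adjoin_inv N
  revert h
  rw [← e]
  exact fun h => h

end J

/-! ### The composite valuation ring of a place of the component -/

section Generic

variable {N : ℕ} [NeZero N] {A : ValuationSubring Qb} {Fk : Type} [Field Fk]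
  [Algebra (kRes A) Fk] {V : Subring (FLb N)} {red : V →+* Fk}

theorem ns_red_inv {z : FLb N} (hz0 : z ≠ 0) (hz : z ∈ V)
    (hzi : z⁻¹ ∈ V) : red ⟨z⁻¹, hzi⟩ = (red ⟨z, hz⟩)⁻¹ := by
  have h1 : (⟨z⁻¹, hzi⟩ : V) * ⟨z, hz⟩ = 1 := Subtype.ext (inv_mul_cancel₀ hz0)
  have h2 := congrArg red h1
  rw [map_mul, map_one] at h2
  exact eq_inv_of_mul_eq_one_left h2

/-- the composite valuation ring `{f ∈ V | red f ∈ O_Q}` -/
def nsComp (H : CompSoft A V red) (Q : Place (kRes A) Fk) : ValuationSubring (FLb N) where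
  carrier := {f | ∃ h : f ∈ V, red ⟨f, h⟩ ∈ Q.toValuationSubring}
  mul_mem' := by
    rintro f g ⟨hf, hf'⟩ ⟨hg, hg'⟩
    refine ⟨V.mul_mem hf hg, ?_⟩
    have e : (⟨f * g, V.mul_mem hf hg⟩ : V) = ⟨f, hf⟩ * ⟨g, hg⟩ := rfl
    rw [e, map_mul]
    exact Q.toValuationSubring.mul_mem _ _ hf' hg'
  one_mem' := by
    refine ⟨V.one_mem, ?_⟩
    have e : (⟨1, V.one_mem⟩ : V) = 1 := rfl
    rw [e, map_one]
    exact Q.toValuationSubring.one_mem
  add_mem' := by
    rintro f g ⟨hf, hf'⟩ ⟨hg, hg'⟩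
    refine ⟨V.add_mem hf hg, ?_⟩
    have e : (⟨f + g, V.add_mem hf hg⟩ : V) = ⟨f, hf⟩ + ⟨g, hg⟩ := rfl
    rw [e, map_add]
    exact Q.toValuationSubring.add_mem _ _ hf' hg'
  zero_mem' := by
    refine ⟨V.zero_mem, ?_⟩
    have e : (⟨0, V.zero_mem⟩ : V) = 0 := rfl
    rw [e, map_zero]
    exact Q.toValuationSubring.zero_mem
  neg_mem' := by
    rintro f ⟨hf, hf'⟩
    refine ⟨V.neg_mem hf, ?_⟩
    have e : (⟨-f, V.neg_mem hf⟩ : V) = -⟨f, hf⟩ := rfl
    rw [e, map_neg]
    exact Q.toValuationSubring.neg_mem _ hf'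
  mem_or_inv_mem' := by
    have key : ∀ z : FLb N, z ≠ 0 → z ∈ V →
        (∃ h : z ∈ V, red ⟨z, h⟩ ∈ Q.toValuationSubring) ∨
          (∃ h : z⁻¹ ∈ V, red ⟨z⁻¹, h⟩ ∈ Q.toValuationSubring) := by
      intro z hz0 hz
      by_cases h0 : red ⟨z, hz⟩ = 0
      · left
        refine ⟨hz, ?_⟩
        rw [h0]
        exact Q.toValuationSubring.zero_mem
      · have hzi : z⁻¹ ∈ V := H.inv ⟨z, hz⟩ h0
        rcases Q.toValuationSubring.mem_or_inv_mem (red ⟨z, hz⟩) with h | h
        · exact Or.inl ⟨hz, h⟩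
        · right
          refine ⟨hzi, ?_⟩
          rw [ns_red_inv hz0 hz hzi]
          exact h
    intro x
    by_cases hx : x = 0
    · left
      refine ⟨hx ▸ V.zero_mem, ?_⟩
      subst hx
      have e : (⟨0, V.zero_mem⟩ : V) = 0 := rfl
      rw [e, map_zero]
      exact Q.toValuationSubring.zero_mem
    · rcases H.val.mem_or_inv_mem x with h | h
      · exact key x hx h
      · rcases key x⁻¹ (inv_ne_zero hx) h with h' | h'
        · exact Or.inr h'
        · left
          rw [inv_inv] at h'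
          exact h'

theorem mem_nsComp_iff (H : CompSoft A V red) (Q : Place (kRes A) Fk) {f : FLb N} :
    f ∈ nsComp H Q ↔ ∃ h : f ∈ V, red ⟨f, h⟩ ∈ Q.toValuationSubring := Iff.rfl

theorem ns_const_mem (H : CompSoft A V red) (Q : Place (kRes A) Fk) {c : Qb} (hc : c ∈ A) :
    algebraMap Qb (FLb N) c ∈ nsComp H Q := by
  refine ⟨H.const_mem c hc, ?_⟩
  rw [H.red_const' hc]
  exact Q.algebraMap_mem' _

/-- the chart `B̄(y)` lies in the composite ring as soon as `y` does -/
theorem ns_chart_le (H : CompSoft A V red) (Q : Place (kRes A) Fk) {y : FLb N}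
    (hy : y ∈ nsComp H Q) {f : FLb N} (hf : f ∈ nmChart N A y) : f ∈ nsComp H Q :=
  nmChart_le A (nsComp H Q) (fun _ hc => ns_const_mem H Q hc) hy hf

/-- the reduction `B̄(y) → O_Q` -/
def nsRed (H : CompSoft A V red) (Q : Place (kRes A) Fk) {y : FLb N}
    (hy : y ∈ nsComp H Q) : ↥(scChart A y) →+* ↥Q.toValuationSubring :=
  RingHom.codRestrict
    (red.comp (Subring.inclusion
      (show scChart A y ≤ V from fun _ hf => (ns_chart_le H Q hy hf).1)))
    Q.toValuationSubring (fun t => (ns_chart_le H Q hy t.2).2)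

theorem coe_nsRed (H : CompSoft A V red) (Q : Place (kRes A) Fk) {y : FLb N}
    (hy : y ∈ nsComp H Q) (t : ↥(scChart A y)) :
    ((nsRed H Q hy t : ↥Q.toValuationSubring) : Fk) =
      red ⟨(t : FLb N), (ns_chart_le H Q hy t.2).1⟩ := rfl

/-- the centre of `Q` on the chart `B̄(y)` -/
def nsIdeal (H : CompSoft A V red) (Q : Place (kRes A) Fk) {y : FLb N}
    (hy : y ∈ nsComp H Q) : Ideal ↥(scChart A y) :=
  (IsLocalRing.maximalIdeal ↥Q.toValuationSubring).comap (nsRed H Q hy)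

instance nsIdeal_isPrime (H : CompSoft A V red) (Q : Place (kRes A) Fk) {y : FLb N}
    (hy : y ∈ nsComp H Q) : (nsIdeal H Q hy).IsPrime :=
  Ideal.comap_isPrime _ _

theorem mem_nsIdeal_iff (H : CompSoft A V red) (Q : Place (kRes A) Fk) {y : FLb N}
    (hy : y ∈ nsComp H Q) (t : ↥(scChart A y)) :
    t ∈ nsIdeal H Q hy ↔
      red ⟨(t : FLb N), (ns_chart_le H Q hy t.2).1⟩ ∈ Q.toValuationSubring.nonunits := by
  rw [nsIdeal, Ideal.mem_comap, ValuationSubring.mem_nonunits_iff_exists_mem_maximalIdeal]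
  constructor
  · intro h
    exact ⟨(ns_chart_le H Q hy t.2).2, h⟩
  · rintro ⟨_, h⟩
    exact h

/-- **The generic step of [SURJ]** : if `y ∈ V` is transcendental with `F / ℚ̄(y)` finite and
`red y` takes the value `ā` at `Q` (`a ∈ A`), there is a place `P` of `F` with `y(P) = a` such
that `red f ∈ 𝔪_Q` for all `f ∈ B̄(y)` with `f(P) ∈ 𝔪_A`. -/
theorem ns_exists_place (H : CompSoft A V red) (Q : Place (kRes A) Fk) {y : FLb N}
    (hyV : y ∈ V) (htr : Transcendental Qb y) (hfin : FiniteDimensional Qb⟮y⟯ (FLb N))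
    (a : A)
    (hya : red ⟨y, hyV⟩ - algebraMap (kRes A) Fk (IsLocalRing.residue A a) ∈
      Q.toValuationSubring.nonunits) :
    ∃ P : Place Qb (FLb N), 1 ≤ P.ord (y - algebraMap Qb (FLb N) (a : Qb)) ∧
      ∀ f ∈ nmChart N A y, ∀ c ∈ A.nonunits, HasValue P f c →
        ∀ h : f ∈ V, red ⟨f, h⟩ ∈ Q.toValuationSubring.nonunits := by
  have hyO : red ⟨y, hyV⟩ ∈ Q.toValuationSubring := by
    have h1 : red ⟨y, hyV⟩ = (red ⟨y, hyV⟩ -
        algebraMap (kRes A) Fk (IsLocalRing.residue A a)) +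
        algebraMap (kRes A) Fk (IsLocalRing.residue A a) := by ring
    rw [h1]
    exact Q.toValuationSubring.add_mem _ _ (ValuationSubring.nonunits_subset hya)
      (Q.algebraMap_mem' _)
  have hy : y ∈ nsComp H Q := ⟨hyV, hyO⟩
  obtain ⟨P, hP1, hP2⟩ := sc_exists_place (K := Qb) (F := FLb N) A htr hfin a.2
    (nsIdeal H Q hy)
    (by
      intro c hc h
      rw [mem_nsIdeal_iff]
      have e : red ⟨algebraMap Qb (FLb N) c, (ns_chart_le H Q hy h).1⟩ = 0 :=
        H.red_const_nonunit hc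
      show red ⟨algebraMap Qb (FLb N) c, _⟩ ∈ _
      rw [e]
      exact (ValuationSubring.mem_nonunits_iff _).2 (by simp))
    (by
      intro h
      rw [mem_nsIdeal_iff]
      show red ⟨y - algebraMap Qb (FLb N) (a : Qb), _⟩ ∈ _
      have e : (⟨y - algebraMap Qb (FLb N) (a : Qb), (ns_chart_le H Q hy h).1⟩ : V) =
          ⟨y, hyV⟩ - ⟨algebraMap Qb (FLb N) (a : Qb), H.const_mem _ a.2⟩ := rfl
      rw [e, map_sub, H.red_const' a.2]
      exact hya)
  refine ⟨P, hP1, ?_⟩
  intro f hf c hc hv h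
  have h1 := hP2 ⟨f, hf⟩ c hc hv
  rw [mem_nsIdeal_iff] at h1
  exact h1

/-- **[SURJ] for a generic component** : every place of `Fk` lies over the centre of a place of
`F`. -/
theorem ns_surj (H : CompSoft A V red) (hdeg : ∀ Q : Place (kRes A) Fk, Q.deg = 1)
    (Q : Place (kRes A) Fk) :
    ∃ P : Place Qb (FLb N), GenSpec V red (nmCentre A P) Q := by
  classical
  by_cases hj : red ⟨nmJ N, H.j_mem⟩ ∈ Q.toValuationSubring
  · -- the chart `j`
    obtain ⟨κ, hκ⟩ := Fermat.Agent.H23.exists_const_sub_mem_maximalIdeal Q (hdeg Q)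
      ⟨red ⟨nmJ N, H.j_mem⟩, hj⟩
    obtain ⟨a, rfl⟩ := IsLocalRing.residue_surjective κ
    have hya : red ⟨nmJ N, H.j_mem⟩ - algebraMap (kRes A) Fk (IsLocalRing.residue A a) ∈
        Q.toValuationSubring.nonunits := by
      rw [ValuationSubring.mem_nonunits_iff_exists_mem_maximalIdeal]
      exact ⟨sub_mem hj (Q.algebraMap_mem' _), hκ⟩
    obtain ⟨P, hP1, hP2⟩ := ns_exists_place H Q H.j_mem (nsj_transcendental N)
      (nsj_finite N) a hya
    have hY : nmY A P = nmJ N := by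
      unfold nmY
      rw [if_pos]
      exact ⟨(a : Qb), a.2, Or.inr hP1⟩
    refine ⟨P, ?_⟩
    rintro f ⟨hfB, c, hc, hv⟩ h
    rw [hY] at hfB
    exact hP2 f hfB c hc hv h
  · -- the chart `j⁻¹`
    have hji : (red ⟨nmJ N, H.j_mem⟩)⁻¹ ∈ Q.toValuationSubring.nonunits := by
      rw [ValuationSubring.mem_nonunits_iff_or]
      right
      rw [inv_inv]
      exact hj
    have hred : red ⟨(nmJ N)⁻¹, H.jinv_mem⟩ = (red ⟨nmJ N, H.j_mem⟩)⁻¹ :=
      ns_red_inv (nsj_ne_zero N) H.j_mem H.jinv_mem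
    have hya : red ⟨(nmJ N)⁻¹, H.jinv_mem⟩ -
        algebraMap (kRes A) Fk (IsLocalRing.residue A (0 : A)) ∈
        Q.toValuationSubring.nonunits := by
      rw [map_zero, map_zero, sub_zero, hred]
      exact hji
    obtain ⟨P, hP1, hP2⟩ := ns_exists_place H Q H.jinv_mem (nsj_inv_transcendental N)
      (nsj_inv_finite N) 0 hya
    have hP1' : 1 ≤ P.ord (nmJ N)⁻¹ := by
      have e : (nmJ N)⁻¹ - algebraMap Qb (FLb N) ((0 : A) : Qb) = (nmJ N)⁻¹ := by
        rw [ZeroMemClass.coe_zero, map_zero, sub_zero]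
      rwa [e] at hP1
    have hY : nmY A P = (nmJ N)⁻¹ := by
      unfold nmY
      rw [if_neg]
      rintro ⟨c, -, hv⟩
      have h1 : nmv P (nmJ N) ≤ 1 := nmv_le_one_of_hasValue P hv
      have h2 : (nmJ N)⁻¹ ∈ P.toValuationSubring.nonunits := by
        rw [nm_mem_nonunits_iff_ord]
        right
        omega
      rw [ValuationSubring.mem_nonunits_iff, map_inv₀] at h2
      have h3 : (1 : P.toValuationSubring.ValueGroup) < nmv P (nmJ N) := by
        by_contra hcon
        rw [not_lt] at hcon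
        have h0 : nmv P (nmJ N) ≠ 0 := by
          rw [Ne, map_eq_zero]
          exact nsj_ne_zero N
        have : 1 ≤ (nmv P (nmJ N))⁻¹ := (one_le_inv₀ (zero_lt_iff.2 h0)).2 hcon
        exact absurd h2 (not_lt.2 this)
      exact absurd h1 (not_le.2 h3)
    refine ⟨P, ?_⟩
    rintro f ⟨hfB, c, hc, hv⟩ h
    rw [hY] at hfB
    exact hP2 f hfB c hc hv h

end Generic

/-! ### The targets of row B1-D-SURJ -/

section Targets

variable (M p : ℕ) [NeZero M] [NeZero p]

theorem ns_deg_one {A : ValuationSubring Qb} (h : NmSetup M p A)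
    (Q : Place (kRes A) (NmF (M * p) A)) : Q.deg = 1 := by
  have hpM : ¬ p ∣ M := fun hd =>
    h.prime.one_lt.ne' (Nat.Coprime.eq_one_of_dvd h.cop.symm hd)
  exact (Fermat.Agent.H92.ORD.b1_rrHyp_nmF M p h.prime hpM A h.liesOver).2.deg_one Q

/-- **[SURJ], component `∞`.** -/
theorem nmSurjOo : NmSurjOoStatement M p := by
  intro A h Q
  have H := nmBase_of_soft (Fermat.Agent.H20.ORD.nmSoft M p) h
  exact ns_surj H.oo (ns_deg_one M p h) Q

/-- **[SURJ], component `0`.** -/
theorem nmSurjZero : NmSurjZeroStatement M p := by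
  intro A h Q
  have H := nmBase_of_soft (Fermat.Agent.H20.ORD.nmSoft M p) h
  exact ns_surj H.zero (ns_deg_one M p h) Q

end Targets

end Fermat.Agent.H2.ORD

end
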